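/-
[PROFIN-LES] 10f (helper13): functoriality of level cohomology `H0, H1, H2`
(`Profin15.LevelStr`) in the coefficient module.
-/
import Fermat.Agent.S55.Profin15.Cohomology

set_option autoImplicit false

universe u

open CategoryTheory groupCohomology

namespace Fermat.Agent.S55.LevelLES13

open Fermat.Agent.S55.Profin15

variable {k G : Type u} [CommRing k] [Group G] (𝒰 : LevelStr G) {A B C : Rep k G}

/-- post-composition of `1`-cochains with a morphism of representations -/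
def comp₁ (f : A ⟶ B) : (G → A) →ₗ[k] (G → B) := f.hom.toLinearMap.compLeft G

/-- post-composition of `2`-cochains with a morphism of representations -/
def comp₂ (f : A ⟶ B) : (G × G → A) →ₗ[k] (G × G → B) := f.hom.toLinearMap.compLeft (G × G)

@[simp] lemma comp₁_apply (f : A ⟶ B) (c : G → A) (x : G) : comp₁ f c x = f.hom (c x) := rfl

@[simp] lemma comp₂_apply (f : A ⟶ B) (c : G × G → A) (x : G × G) :
    comp₂ f c x = f.hom (c x) := rfl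

lemma comp₁_d₀₁ (f : A ⟶ B) (m : A) : comp₁ f ((d₀₁ A).hom m) = (d₀₁ B).hom (f.hom m) := by
  funext x
  simp only [comp₁_apply, d₀₁_hom_apply, map_sub, Rep.hom_comm_apply]

lemma comp₂_d₁₂ (f : A ⟶ B) (c : G → A) :
    comp₂ f ((d₁₂ A).hom c) = (d₁₂ B).hom (comp₁ f c) := by
  funext x
  simp only [comp₂_apply, comp₁_apply, d₁₂_hom_apply, map_sub, map_add, Rep.hom_comm_apply]

lemma comp₁_mem_cocycles₁ (f : A ⟶ B) {c : G → A} (hc : c ∈ cocycles₁ A) :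
    comp₁ f c ∈ cocycles₁ B := by
  rw [mem_cocycles₁_iff] at hc ⊢
  intro g h
  simp only [comp₁_apply, hc g h, map_add, Rep.hom_comm_apply]

lemma comp₂_mem_cocycles₂ (f : A ⟶ B) {c : G × G → A} (hc : c ∈ cocycles₂ A) :
    comp₂ f c ∈ cocycles₂ B := by
  rw [mem_cocycles₂_iff] at hc ⊢
  intro g h j
  simp only [comp₂_apply]
  rw [← map_add, hc g h j, map_add, Rep.hom_comm_apply]

lemma comp₁_mem_coboundaries₁ (f : A ⟶ B) {c : G → A} (hc : c ∈ coboundaries₁ A) :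
    comp₁ f c ∈ coboundaries₁ B := by
  obtain ⟨m, rfl⟩ := hc
  exact ⟨f.hom m, (comp₁_d₀₁ f m).symm⟩

lemma comp₁_mem_Z₁ (f : A ⟶ B) {c : G → A} (hc : c ∈ 𝒰.Z₁ A) : comp₁ f c ∈ 𝒰.Z₁ B :=
  ⟨comp₁_mem_cocycles₁ f hc.1, LevelStr.IsConst₁.comp hc.2 f.hom⟩

lemma comp₂_mem_Z₂ (f : A ⟶ B) {c : G × G → A} (hc : c ∈ 𝒰.Z₂ A) : comp₂ f c ∈ 𝒰.Z₂ B :=
  ⟨comp₂_mem_cocycles₂ f hc.1, LevelStr.IsConst₂.comp hc.2 f.hom⟩

lemma comp₂_mem_B₂ (f : A ⟶ B) {c : G × G → A} (hc : c ∈ 𝒰.B₂ A) : comp₂ f c ∈ 𝒰.B₂ B := by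
  obtain ⟨x, hx, rfl⟩ := (𝒰.mem_B₂_iff A c).1 hc
  exact (𝒰.mem_B₂_iff B _).2 ⟨comp₁ f x, LevelStr.IsConst₁.comp hx f.hom, (comp₂_d₁₂ f x).symm⟩

/-- the map on invariants (`LevelStr.H0 M = M.ρ.invariants` does not depend on the levels) -/
noncomputable def H0map (f : A ⟶ B) : ↥(A.ρ.invariants) →ₗ[k] ↥(B.ρ.invariants) :=
  f.hom.toLinearMap.restrict (p := A.ρ.invariants) (q := B.ρ.invariants) (fun a ha g => by
    have := ha g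
    show B.ρ g (f.hom a) = f.hom a
    rw [← Rep.hom_comm_apply, this])

@[simp] lemma H0map_coe (f : A ⟶ B) (a : ↥(A.ρ.invariants)) :
    ((H0map f a : ↥(B.ρ.invariants)) : B) = f.hom a := rfl

/-- the map on level `1`-cocycles -/
def Z1map (f : A ⟶ B) : ↥(𝒰.Z₁ A) →ₗ[k] ↥(𝒰.Z₁ B) :=
  (comp₁ f).restrict (fun _ hc => comp₁_mem_Z₁ 𝒰 f hc)

@[simp] lemma Z1map_coe (f : A ⟶ B) (c : ↥(𝒰.Z₁ A)) (x : G) :
    ((Z1map 𝒰 f c : ↥(𝒰.Z₁ B)) : G → B) x = f.hom ((c : G → A) x) := rfl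

/-- the map on level `2`-cocycles -/
def Z2map (f : A ⟶ B) : ↥(𝒰.Z₂ A) →ₗ[k] ↥(𝒰.Z₂ B) :=
  (comp₂ f).restrict (fun _ hc => comp₂_mem_Z₂ 𝒰 f hc)

@[simp] lemma Z2map_coe (f : A ⟶ B) (c : ↥(𝒰.Z₂ A)) (x : G × G) :
    ((Z2map 𝒰 f c : ↥(𝒰.Z₂ B)) : G × G → B) x = f.hom ((c : G × G → A) x) := rfl

/-- the map on level `H¹` -/
def H1map (f : A ⟶ B) : 𝒰.H1 A →ₗ[k] 𝒰.H1 B :=
  Submodule.mapQ _ _ (Z1map 𝒰 f) (fun c hc => by
    simp only [Submodule.mem_comap, Submodule.subtype_apply] at hc ⊢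
    exact comp₁_mem_coboundaries₁ f hc)

/-- the map on level `H²` -/
def H2map (f : A ⟶ B) : 𝒰.H2 A →ₗ[k] 𝒰.H2 B :=
  Submodule.mapQ _ _ (Z2map 𝒰 f) (fun c hc => by
    simp only [Submodule.mem_comap, Submodule.subtype_apply] at hc ⊢
    exact comp₂_mem_B₂ 𝒰 f hc)

@[simp] lemma H1map_mk (f : A ⟶ B) (c : ↥(𝒰.Z₁ A)) :
    H1map 𝒰 f (𝒰.H1π A c) = 𝒰.H1π B (Z1map 𝒰 f c) := rfl

@[simp] lemma H2map_mk (f : A ⟶ B) (c : ↥(𝒰.Z₂ A)) :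
    H2map 𝒰 f (𝒰.H2π A c) = 𝒰.H2π B (Z2map 𝒰 f c) := rfl

lemma H1π_surjective (M : Rep k G) : Function.Surjective (𝒰.H1π M) :=
  Submodule.mkQ_surjective _

lemma H2π_surjective (M : Rep k G) : Function.Surjective (𝒰.H2π M) :=
  Submodule.mkQ_surjective _

lemma H1map_id (x : 𝒰.H1 A) : H1map 𝒰 (𝟙 A) x = x := by
  obtain ⟨c, rfl⟩ := H1π_surjective 𝒰 A x
  rfl

lemma H2map_id (x : 𝒰.H2 A) : H2map 𝒰 (𝟙 A) x = x := by
  obtain ⟨c, rfl⟩ := H2π_surjective 𝒰 A x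
  rfl

lemma H0map_comp (f : A ⟶ B) (g : B ⟶ C) (x : ↥(A.ρ.invariants)) :
    H0map (f ≫ g) x = H0map g (H0map f x) := rfl

lemma H1map_comp (f : A ⟶ B) (g : B ⟶ C) (x : 𝒰.H1 A) :
    H1map 𝒰 (f ≫ g) x = H1map 𝒰 g (H1map 𝒰 f x) := by
  obtain ⟨c, rfl⟩ := H1π_surjective 𝒰 A x
  rfl

lemma H2map_comp (f : A ⟶ B) (g : B ⟶ C) (x : 𝒰.H2 A) :
    H2map 𝒰 (f ≫ g) x = H2map 𝒰 g (H2map 𝒰 f x) := by
  obtain ⟨c, rfl⟩ := H2π_surjective 𝒰 A x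
  rfl

/-- equality of classes in level `H¹`, explicit form -/
lemma H1π_eq_iff {M : Rep k G} (c c' : ↥(𝒰.Z₁ M)) :
    𝒰.H1π M c = 𝒰.H1π M c' ↔ ∃ m : M, ∀ x, (c : G → M) x - (c' : G → M) x = M.ρ x m - m := by
  rw [← sub_eq_zero, ← map_sub, LevelStr.H1π_eq_zero_iff]
  constructor
  · rintro ⟨m, hm⟩
    refine ⟨m, fun x => ?_⟩
    have := congr_fun hm x
    simp only [d₀₁_hom_apply] at this
    exact this.symm
  · rintro ⟨m, hm⟩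
    refine ⟨m, ?_⟩
    funext x
    simp only [d₀₁_hom_apply]
    exact (hm x).symm

/-- equality of classes in level `H²`, explicit form -/
lemma H2π_eq_iff {M : Rep k G} (c c' : ↥(𝒰.Z₂ M)) :
    𝒰.H2π M c = 𝒰.H2π M c' ↔ ∃ y : G → M, 𝒰.IsConst₁ y ∧
      ∀ x, (c : G × G → M) x - (c' : G × G → M) x = (d₁₂ M).hom y x := by
  rw [← sub_eq_zero, ← map_sub, LevelStr.H2π_eq_zero_iff, LevelStr.mem_B₂_iff]
  constructor
  · rintro ⟨y, hy, h⟩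
    refine ⟨y, hy, fun x => ?_⟩
    rw [h]; rfl
  · rintro ⟨y, hy, h⟩
    refine ⟨y, hy, ?_⟩
    funext x
    exact (h x).symm

end Fermat.Agent.S55.LevelLES13
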