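/-
[PROFIN-LES] 10f (helper13): short exact sequences of smooth modules and the two connecting
maps `δ₀ : H0 C → H1 A`, `δ₁ : H1 C → H2 A` of level cohomology (`Profin15.LevelStr`).
-/
import Fermat.Agent.S55.LevelLES13.Functor

set_option autoImplicit false

universe u

open CategoryTheory groupCohomology

namespace Fermat.Agent.S55.LevelLES13

open Fermat.Agent.S55.Profin15

variable {k G : Type u} [CommRing k] [Group G] (𝒰 : LevelStr G) {A B C : Rep k G}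
  {f : A ⟶ B} {g : B ⟶ C}

/-- `0 → A → B → C → 0` is exact (as a sequence of modules). -/
structure ShortExact (f : A ⟶ B) (g : B ⟶ C) : Prop where
  inj : Function.Injective f.hom
  surj : Function.Surjective g.hom
  exact : ∀ b, g.hom b = 0 ↔ ∃ a, f.hom a = b

namespace ShortExact

variable (h : ShortExact f g)
include h

lemma g_f (a : A) : g.hom (f.hom a) = 0 := (h.exact _).2 ⟨a, rfl⟩

/-- a (noncanonical) preimage under `f` -/
noncomputable def pre (b : B) : A :=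
  open Classical in if hb : g.hom b = 0 then ((h.exact b).1 hb).choose else 0

lemma f_pre {b : B} (hb : g.hom b = 0) : f.hom (h.pre b) = b := by
  rw [pre, dif_pos hb]
  exact ((h.exact b).1 hb).choose_spec

variable {𝒰}

lemma isSmooth_left (hB : 𝒰.IsSmooth B) : 𝒰.IsSmooth A := by
  intro a
  obtain ⟨U, hU, hfix⟩ := hB (f.hom a)
  refine ⟨U, hU, fun s hs => h.inj ?_⟩
  rw [Rep.hom_comm_apply, hfix s hs]

lemma isSmooth_right (hB : 𝒰.IsSmooth B) : 𝒰.IsSmooth C := by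
  intro c
  obtain ⟨b, rfl⟩ := h.surj c
  obtain ⟨U, hU, hfix⟩ := hB b
  refine ⟨U, hU, fun s hs => ?_⟩
  rw [← Rep.hom_comm_apply, hfix s hs]

end ShortExact

/-! ### `d₁₂ ∘ d₀₁ = 0`, elementwise -/

lemma d₁₂_d₀₁ (M : Rep k G) (m : M) : (d₁₂ M).hom ((d₀₁ M).hom m) = 0 := by
  funext x
  show (d₁₂ M).hom ((d₀₁ M).hom m) x = 0
  simp only [d₁₂_hom_apply, d₀₁_hom_apply, map_sub, map_mul, Module.End.mul_apply]
  abel

lemma isConst₁_sub {𝒰 : LevelStr G} {X : Type*} [Sub X] {y y' : G → X} (hy : 𝒰.IsConst₁ y)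
    (hy' : 𝒰.IsConst₁ y') : 𝒰.IsConst₁ (fun x => y x - y' x) := by
  obtain ⟨U, hU, h⟩ := hy
  obtain ⟨W, hW, hle, h'⟩ := hy'.exists_le hU
  exact ⟨W, hW, fun g s hs => by simp only [h g s (hle hs), h' g s hs]⟩

lemma d₁₂_mem_cocycles₂ (M : Rep k G) (y : G → M) : (d₁₂ M).hom y ∈ cocycles₂ M :=
  coboundaries₂_le_cocycles₂ M ⟨y, rfl⟩

/-! ### The connecting map `δ₀` -/

/-- `z` represents `δ₀ c`: there is a lift `b` of `c` with `f ∘ z = d b`. -/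
def IsDelta0 (f : A ⟶ B) (g : B ⟶ C) (c : C) (z : G → A) : Prop :=
  ∃ b : B, g.hom b = c ∧ ∀ x, f.hom (z x) = B.ρ x b - b

variable {𝒰}

lemma IsDelta0.add {c c' : C} {z z' : G → A} (hz : IsDelta0 f g c z) (hz' : IsDelta0 f g c' z') :
    IsDelta0 f g (c + c') (z + z') := by
  obtain ⟨b, hb, h1⟩ := hz
  obtain ⟨b', hb', h1'⟩ := hz'
  refine ⟨b + b', by rw [map_add, hb, hb'], fun x => ?_⟩
  simp only [Pi.add_apply, map_add, h1 x, h1' x]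
  abel

lemma IsDelta0.smul {c : C} {z : G → A} (r : k) (hz : IsDelta0 f g c z) :
    IsDelta0 f g (r • c) (r • z) := by
  obtain ⟨b, hb, h1⟩ := hz
  refine ⟨r • b, by rw [map_smul, hb], fun x => ?_⟩
  simp only [Pi.smul_apply, map_smul, h1 x, smul_sub]

lemma IsDelta0.mem_Z₁ (h : ShortExact f g) (hB : 𝒰.IsSmooth B) {c : C} {z : G → A}
    (hz : IsDelta0 f g c z) : z ∈ 𝒰.Z₁ A := by
  obtain ⟨b, -, h1⟩ := hz
  refine (𝒰.mem_Z₁_iff A z).2 ⟨?_, ?_⟩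
  · rw [mem_cocycles₁_iff]
    intro x y
    apply h.inj
    rw [map_add, Rep.hom_comm_apply, h1, h1, h1, map_sub, map_mul, Module.End.mul_apply]
    abel
  · obtain ⟨U, hU, hfix⟩ := hB b
    refine ⟨U, hU, fun x s hs => h.inj ?_⟩
    rw [h1, h1, map_mul, Module.End.mul_apply, hfix s hs]

lemma exists_isDelta0 (h : ShortExact f g) (c : C) (hc : c ∈ C.ρ.invariants) :
    ∃ z : G → A, IsDelta0 f g c z := by
  obtain ⟨b, rfl⟩ := h.surj c
  refine ⟨fun x => h.pre (B.ρ x b - b), b, rfl, fun x => h.f_pre ?_⟩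
  rw [map_sub, Rep.hom_comm_apply, hc x, sub_self]

lemma IsDelta0.unique (h : ShortExact f g) {c : C} {z z' : ↥(𝒰.Z₁ A)}
    (hz : IsDelta0 f g c (z : G → A)) (hz' : IsDelta0 f g c (z' : G → A)) :
    𝒰.H1π A z = 𝒰.H1π A z' := by
  obtain ⟨b, hb, h1⟩ := hz
  obtain ⟨b', hb', h1'⟩ := hz'
  obtain ⟨a, ha⟩ := (h.exact (b - b')).1 (by rw [map_sub, hb, hb', sub_self])
  refine (H1π_eq_iff 𝒰 z z').2 ⟨a, fun x => h.inj ?_⟩
  rw [map_sub, h1, h1', map_sub, Rep.hom_comm_apply, ha, map_sub]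
  abel

variable (𝒰)

/-- a chosen representative of `δ₀ c` -/
noncomputable def delta0Rep (h : ShortExact f g) (hB : 𝒰.IsSmooth B) (c : ↥(C.ρ.invariants)) :
    ↥(𝒰.Z₁ A) :=
  ⟨(exists_isDelta0 h c.1 c.2).choose, (exists_isDelta0 h c.1 c.2).choose_spec.mem_Z₁ h hB⟩

lemma isDelta0_delta0Rep (h : ShortExact f g) (hB : 𝒰.IsSmooth B) (c : ↥(C.ρ.invariants)) :
    IsDelta0 f g (c : C) (delta0Rep 𝒰 h hB c : G → A) :=
  (exists_isDelta0 h c.1 c.2).choose_spec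

/-- **The connecting map `δ₀ : H⁰(C) → H¹(A)`.** -/
noncomputable def δ₀ (h : ShortExact f g) (hB : 𝒰.IsSmooth B) :
    ↥(C.ρ.invariants) →ₗ[k] 𝒰.H1 A where
  toFun c := 𝒰.H1π A (delta0Rep 𝒰 h hB c)
  map_add' c c' := by
    rw [← map_add]
    exact IsDelta0.unique h (isDelta0_delta0Rep 𝒰 h hB (c + c'))
      ((isDelta0_delta0Rep 𝒰 h hB c).add (isDelta0_delta0Rep 𝒰 h hB c'))
  map_smul' r c := by
    rw [RingHom.id_apply, ← map_smul]
    exact IsDelta0.unique h (isDelta0_delta0Rep 𝒰 h hB (r • c))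
      ((isDelta0_delta0Rep 𝒰 h hB c).smul r)

/-- **Choice-free characterisation of `δ₀`.** -/
theorem δ₀_eq (h : ShortExact f g) (hB : 𝒰.IsSmooth B) (c : ↥(C.ρ.invariants)) (b : B)
    (hb : g.hom b = c) (z : ↥(𝒰.Z₁ A)) (hz : ∀ x, f.hom ((z : G → A) x) = B.ρ x b - b) :
    δ₀ 𝒰 h hB c = 𝒰.H1π A z :=
  IsDelta0.unique h (isDelta0_delta0Rep 𝒰 h hB c) ⟨b, hb, hz⟩

/-- every value of `δ₀` has a representative with a prescribed lift `b` -/
theorem exists_δ₀_eq (h : ShortExact f g) (hB : 𝒰.IsSmooth B) (c : ↥(C.ρ.invariants)) (b : B)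
    (hb : g.hom b = c) :
    ∃ z : ↥(𝒰.Z₁ A), (∀ x, f.hom ((z : G → A) x) = B.ρ x b - b) ∧ δ₀ 𝒰 h hB c = 𝒰.H1π A z := by
  have hd : IsDelta0 f g (c : C) (fun x => h.pre (B.ρ x b - b)) :=
    ⟨b, hb, fun x => h.f_pre (by rw [map_sub, Rep.hom_comm_apply, hb, c.2 x, sub_self])⟩
  exact ⟨⟨_, hd.mem_Z₁ h hB⟩, fun x => h.f_pre
    (by rw [map_sub, Rep.hom_comm_apply, hb, c.2 x, sub_self]), δ₀_eq 𝒰 h hB c b hb _
    (fun x => h.f_pre (by rw [map_sub, Rep.hom_comm_apply, hb, c.2 x, sub_self]))⟩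

/-! ### The connecting map `δ₁` -/

/-- `w` represents `δ₁ [z]`: there is a level lift `y` of `z` with `f ∘ w = d y`. -/
def IsDelta1 (𝒰 : LevelStr G) (f : A ⟶ B) (g : B ⟶ C) (z : G → C) (w : G × G → A) : Prop :=
  ∃ y : G → B, 𝒰.IsConst₁ y ∧ (∀ x, g.hom (y x) = z x) ∧ ∀ x, f.hom (w x) = (d₁₂ B).hom y x

variable {𝒰}

lemma IsDelta1.add {z z' : G → C} {w w' : G × G → A} (hw : IsDelta1 𝒰 f g z w)
    (hw' : IsDelta1 𝒰 f g z' w') : IsDelta1 𝒰 f g (z + z') (w + w') := by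
  obtain ⟨y, hy, h1, h2⟩ := hw
  obtain ⟨y', hy', h1', h2'⟩ := hw'
  refine ⟨y + y', hy.add hy', fun x => by simp only [Pi.add_apply, map_add, h1 x, h1' x],
    fun x => ?_⟩
  rw [map_add (d₁₂ B).hom]
  simp only [Pi.add_apply, map_add, h2 x, h2' x]

lemma IsDelta1.smul {z : G → C} {w : G × G → A} (r : k) (hw : IsDelta1 𝒰 f g z w) :
    IsDelta1 𝒰 f g (r • z) (r • w) := by
  obtain ⟨y, hy, h1, h2⟩ := hw
  refine ⟨r • y, hy.comp (r • ·), fun x => by simp only [Pi.smul_apply, map_smul, h1 x],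
    fun x => ?_⟩
  rw [map_smul (d₁₂ B).hom]
  simp only [Pi.smul_apply, map_smul, h2 x]

lemma IsDelta1.mem_Z₂ (h : ShortExact f g) (hB : 𝒰.IsSmooth B) {z : G → C} {w : G × G → A}
    (hw : IsDelta1 𝒰 f g z w) : w ∈ 𝒰.Z₂ A := by
  obtain ⟨y, hy, -, h2⟩ := hw
  refine (𝒰.mem_Z₂_iff A w).2 ⟨?_, ?_⟩
  · have hc := (mem_cocycles₂_iff _).1 (d₁₂_mem_cocycles₂ B y)
    rw [mem_cocycles₂_iff]
    intro a b c
    apply h.inj
    rw [map_add, map_add, Rep.hom_comm_apply, h2, h2, h2, h2]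
    exact hc a b c
  · obtain ⟨U, hU, hconst⟩ := hB.d₁₂_mem_C₂ hy
    refine ⟨U, hU, fun a b s s' hs hs' => h.inj ?_⟩
    rw [h2, h2]
    exact hconst a b s s' hs hs'

lemma exists_isDelta1 (h : ShortExact f g) {z : G → C} (hz : z ∈ 𝒰.Z₁ C) :
    ∃ w : G × G → A, IsDelta1 𝒰 f g z w := by
  have hy : 𝒰.IsConst₁ (Function.surjInv h.surj ∘ z) := hz.2.comp _
  have hgy : ∀ x, g.hom ((Function.surjInv h.surj ∘ z) x) = z x :=
    fun x => Function.surjInv_eq h.surj (z x)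
  refine ⟨fun x => h.pre ((d₁₂ B).hom (Function.surjInv h.surj ∘ z) x), _, hy, hgy,
    fun x => h.f_pre ?_⟩
  have hz1 := (mem_cocycles₁_iff z).1 hz.1 x.1 x.2
  rw [d₁₂_hom_apply, map_add, map_sub, Rep.hom_comm_apply, hgy, hgy, hgy, hz1]
  abel

/-- the key uniqueness statement: cohomologous `z, z'` have cohomologous `δ₁`-representatives -/
lemma IsDelta1.unique (h : ShortExact f g) (hB : 𝒰.IsSmooth B) {z z' : G → C}
    {w w' : ↥(𝒰.Z₂ A)} (hw : IsDelta1 𝒰 f g z (w : G × G → A))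
    (hw' : IsDelta1 𝒰 f g z' (w' : G × G → A)) (hzz' : z - z' ∈ coboundaries₁ C) :
    𝒰.H2π A w = 𝒰.H2π A w' := by
  obtain ⟨y, hy, h1, h2⟩ := hw
  obtain ⟨y', hy', h1', h2'⟩ := hw'
  obtain ⟨c₀, hc₀⟩ := hzz'
  obtain ⟨b₀, rfl⟩ := h.surj c₀
  -- the level cochain `t` with `f ∘ t = y - y' - d b₀`
  have hker : ∀ x, g.hom (y x - y' x - (B.ρ x b₀ - b₀)) = 0 := by
    intro x
    have := congr_fun hc₀ x
    simp only [d₀₁_hom_apply, Pi.sub_apply] at this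
    rw [map_sub, map_sub, map_sub, h1, h1', Rep.hom_comm_apply, this, sub_self]
  have hdb : 𝒰.IsConst₁ ((d₀₁ B).hom b₀) := hB.coboundaries₁_le_C₁ ⟨b₀, rfl⟩
  have hconst : 𝒰.IsConst₁ (fun x => y x - y' x - (B.ρ x b₀ - b₀)) := by
    have h3 := isConst₁_sub (isConst₁_sub hy hy') hdb
    simpa only [d₀₁_hom_apply] using h3
  refine (H2π_eq_iff 𝒰 w w').2 ⟨fun x => h.pre (y x - y' x - (B.ρ x b₀ - b₀)),
    hconst.comp h.pre, fun x => h.inj ?_⟩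
  have hft : ∀ x, f.hom (h.pre (y x - y' x - (B.ρ x b₀ - b₀))) = y x - y' x - (B.ρ x b₀ - b₀) :=
    fun x => h.f_pre (hker x)
  rw [map_sub, h2, h2', ← comp₂_apply f, comp₂_d₁₂]
  have e : comp₁ f (fun x => h.pre (y x - y' x - (B.ρ x b₀ - b₀))) =
      y - y' - (d₀₁ B).hom b₀ := by
    funext x
    simp only [comp₁_apply, hft x, Pi.sub_apply, d₀₁_hom_apply]
  rw [e, map_sub, map_sub, d₁₂_d₀₁, sub_zero]
  rfl

variable (𝒰)

/-- a chosen representative of `δ₁ [z]` -/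
noncomputable def delta1Rep (h : ShortExact f g) (hB : 𝒰.IsSmooth B) (z : ↥(𝒰.Z₁ C)) :
    ↥(𝒰.Z₂ A) :=
  ⟨(exists_isDelta1 h z.2).choose, (exists_isDelta1 h z.2).choose_spec.mem_Z₂ h hB⟩

lemma isDelta1_delta1Rep (h : ShortExact f g) (hB : 𝒰.IsSmooth B) (z : ↥(𝒰.Z₁ C)) :
    IsDelta1 𝒰 f g (z : G → C) (delta1Rep 𝒰 h hB z : G × G → A) :=
  (exists_isDelta1 h z.2).choose_spec

/-- `δ₁` on level cocycles -/
noncomputable def delta1Z (h : ShortExact f g) (hB : 𝒰.IsSmooth B) :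
    ↥(𝒰.Z₁ C) →ₗ[k] 𝒰.H2 A where
  toFun z := 𝒰.H2π A (delta1Rep 𝒰 h hB z)
  map_add' z z' := by
    rw [← map_add]
    refine IsDelta1.unique h hB (isDelta1_delta1Rep 𝒰 h hB (z + z'))
      ((isDelta1_delta1Rep 𝒰 h hB z).add (isDelta1_delta1Rep 𝒰 h hB z')) ?_
    rw [show ((z + z' : ↥(𝒰.Z₁ C)) : G → C) - ((z : G → C) + (z' : G → C)) = 0 from sub_self _]
    exact Submodule.zero_mem _
  map_smul' r z := by
    rw [RingHom.id_apply, ← map_smul]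
    refine IsDelta1.unique h hB (isDelta1_delta1Rep 𝒰 h hB (r • z))
      ((isDelta1_delta1Rep 𝒰 h hB z).smul r) ?_
    rw [show ((r • z : ↥(𝒰.Z₁ C)) : G → C) - r • (z : G → C) = 0 from sub_self _]
    exact Submodule.zero_mem _

/-- **The connecting map `δ₁ : H¹(C) → H²(A)`.** -/
noncomputable def δ₁ (h : ShortExact f g) (hB : 𝒰.IsSmooth B) : 𝒰.H1 C →ₗ[k] 𝒰.H2 A :=
  Submodule.liftQ _ (delta1Z 𝒰 h hB) (by
    intro z hz
    simp only [Submodule.mem_comap, Submodule.subtype_apply] at hz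
    rw [LinearMap.mem_ker]
    have h0 : IsDelta1 𝒰 f g (0 : G → C) ((0 : ↥(𝒰.Z₂ A)) : G × G → A) :=
      ⟨0, LevelStr.isConst₁_const (0 : B), fun x => by simp, fun x => by simp⟩
    have := IsDelta1.unique h hB (isDelta1_delta1Rep 𝒰 h hB z) h0 (by rwa [sub_zero])
    rw [map_zero] at this
    exact this)

@[simp] lemma δ₁_mk (h : ShortExact f g) (hB : 𝒰.IsSmooth B) (z : ↥(𝒰.Z₁ C)) :
    δ₁ 𝒰 h hB (𝒰.H1π C z) = 𝒰.H2π A (delta1Rep 𝒰 h hB z) := rfl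

/-- **Choice-free characterisation of `δ₁`.** -/
theorem δ₁_eq (h : ShortExact f g) (hB : 𝒰.IsSmooth B) (z : ↥(𝒰.Z₁ C)) (y : G → B)
    (hy : 𝒰.IsConst₁ y) (hgy : ∀ x, g.hom (y x) = (z : G → C) x) (w : ↥(𝒰.Z₂ A))
    (hw : ∀ x, f.hom ((w : G × G → A) x) = (d₁₂ B).hom y x) :
    δ₁ 𝒰 h hB (𝒰.H1π C z) = 𝒰.H2π A w := by
  rw [δ₁_mk]
  refine IsDelta1.unique h hB (isDelta1_delta1Rep 𝒰 h hB z) ⟨y, hy, hgy, hw⟩ ?_
  rw [sub_self]
  exact Submodule.zero_mem _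

/-- every level lift `y` of a level cocycle `z` gives a representative of `δ₁ [z]` -/
theorem exists_δ₁_eq (h : ShortExact f g) (hB : 𝒰.IsSmooth B) (z : ↥(𝒰.Z₁ C)) (y : G → B)
    (hy : 𝒰.IsConst₁ y) (hgy : ∀ x, g.hom (y x) = (z : G → C) x) :
    ∃ w : ↥(𝒰.Z₂ A), (∀ x, f.hom ((w : G × G → A) x) = (d₁₂ B).hom y x) ∧
      δ₁ 𝒰 h hB (𝒰.H1π C z) = 𝒰.H2π A w := by
  have hker : ∀ x, g.hom ((d₁₂ B).hom y x) = 0 := by
    intro x
    have hz1 := (mem_cocycles₁_iff (z : G → C)).1 z.2.1 x.1 x.2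
    rw [d₁₂_hom_apply, map_add, map_sub, Rep.hom_comm_apply, hgy, hgy, hgy, hz1]
    abel
  have hd : IsDelta1 𝒰 f g (z : G → C) (fun x => h.pre ((d₁₂ B).hom y x)) :=
    ⟨y, hy, hgy, fun x => h.f_pre (hker x)⟩
  exact ⟨⟨_, hd.mem_Z₂ h hB⟩, fun x => h.f_pre (hker x),
    δ₁_eq 𝒰 h hB z y hy hgy _ (fun x => h.f_pre (hker x))⟩

end Fermat.Agent.S55.LevelLES13
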