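/-
[PROFIN-LES] 10f (helper13): exactness of the long sequence
`0 → H0 A → H0 B → H0 C → H1 A → H1 B → H1 C → H2 A → H2 B → H2 C`
of level cohomology (`Profin15.LevelStr`) attached to a short exact sequence of smooth modules.
-/
import Fermat.Agent.S55.LevelLES13.Delta

set_option autoImplicit false

universe u

open CategoryTheory groupCohomology

namespace Fermat.Agent.S55.LevelLES13

open Fermat.Agent.S55.Profin15

variable {k G : Type u} [CommRing k] [Group G] (𝒰 : LevelStr G) {A B C : Rep k G}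
  {f : A ⟶ B} {g : B ⟶ C}

/-! ### small helpers -/

lemma mem_cocycles₁_iff_d₁₂ (M : Rep k G) (y : G → M) : y ∈ cocycles₁ M ↔ (d₁₂ M).hom y = 0 :=
  LinearMap.mem_ker

lemma H1π_eq_zero_of_forall {M : Rep k G} (z : ↥(𝒰.Z₁ M)) (hz : ∀ x, (z : G → M) x = 0) :
    𝒰.H1π M z = 0 := by
  have : z = 0 := Subtype.ext (funext hz)
  rw [this, map_zero]

lemma H2π_eq_zero_of_forall {M : Rep k G} (w : ↥(𝒰.Z₂ M)) (hw : ∀ x, (w : G × G → M) x = 0) :
    𝒰.H2π M w = 0 := by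
  have : w = 0 := Subtype.ext (funext hw)
  rw [this, map_zero]

variable {𝒰}

/-- a cochain with values in `ker g` comes from `A`; cocycle/level conditions transfer -/
lemma exists_Z₁_of_comp_eq_zero (h : ShortExact f g) {y : G → B} (hy : y ∈ 𝒰.Z₁ B)
    (hgy : ∀ x, g.hom (y x) = 0) :
    ∃ z : ↥(𝒰.Z₁ A), ∀ x, f.hom ((z : G → A) x) = y x := by
  have hf : ∀ x, f.hom (h.pre (y x)) = y x := fun x => h.f_pre (hgy x)
  refine ⟨⟨fun x => h.pre (y x), (𝒰.mem_Z₁_iff A _).2 ⟨?_, hy.2.comp h.pre⟩⟩, hf⟩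
  rw [mem_cocycles₁_iff]
  intro a b
  apply h.inj
  rw [map_add, Rep.hom_comm_apply, hf, hf, hf]
  exact (mem_cocycles₁_iff y).1 hy.1 a b

lemma exists_Z₂_of_comp_eq_zero (h : ShortExact f g) {v : G × G → B} (hv : v ∈ 𝒰.Z₂ B)
    (hgv : ∀ x, g.hom (v x) = 0) :
    ∃ w : ↥(𝒰.Z₂ A), ∀ x, f.hom ((w : G × G → A) x) = v x := by
  have hf : ∀ x, f.hom (h.pre (v x)) = v x := fun x => h.f_pre (hgv x)
  refine ⟨⟨fun x => h.pre (v x), (𝒰.mem_Z₂_iff A _).2 ⟨?_, hv.2.comp h.pre⟩⟩, hf⟩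
  rw [mem_cocycles₂_iff]
  intro a b c
  apply h.inj
  rw [map_add, map_add, Rep.hom_comm_apply, hf, hf, hf, hf]
  exact (mem_cocycles₂_iff v).1 hv.1 a b c

variable (𝒰)

/-! ### degree 0 -/

theorem H0map_injective (h : ShortExact f g) : Function.Injective (H0map f) := by
  intro a a' haa'
  apply Subtype.ext
  apply h.inj
  have := congrArg Subtype.val haa'
  simpa using this

theorem exact_H0B (h : ShortExact f g) :
    LinearMap.ker (H0map g) = LinearMap.range (H0map f) := by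
  apply le_antisymm
  · intro b hb
    rw [LinearMap.mem_ker] at hb
    have hb' : g.hom (b : B) = 0 := by
      have := congrArg Subtype.val hb
      simpa using this
    obtain ⟨a, ha⟩ := (h.exact _).1 hb'
    refine ⟨⟨a, fun x => h.inj ?_⟩, Subtype.ext ha⟩
    rw [Rep.hom_comm_apply, ha]
    exact b.2 x
  · rintro _ ⟨a, rfl⟩
    rw [LinearMap.mem_ker]
    apply Subtype.ext
    show g.hom (f.hom (a : A)) = 0
    exact h.g_f _

theorem exact_H0C (h : ShortExact f g) (hB : 𝒰.IsSmooth B) :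
    LinearMap.ker (δ₀ 𝒰 h hB) = LinearMap.range (H0map g) := by
  apply le_antisymm
  · intro c hc
    rw [LinearMap.mem_ker] at hc
    obtain ⟨b, hb⟩ := h.surj (c : C)
    obtain ⟨z, hz, hδ⟩ := exists_δ₀_eq 𝒰 h hB c b hb
    rw [hδ, LevelStr.H1π_eq_zero_iff] at hc
    obtain ⟨a, ha⟩ := hc
    have hinv : b - f.hom a ∈ B.ρ.invariants := by
      intro x
      have h1 := hz x
      have h2 := congr_fun ha x
      simp only [d₀₁_hom_apply] at h2
      rw [← h2, map_sub, Rep.hom_comm_apply] at h1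
      rw [map_sub]
      have e : B.ρ x b - B.ρ x (f.hom a) - (b - f.hom a) =
          (B.ρ x b - b) - (B.ρ x (f.hom a) - f.hom a) := by abel
      exact sub_eq_zero.1 (by rw [e, h1, sub_self])
    refine ⟨⟨b - f.hom a, hinv⟩, Subtype.ext ?_⟩
    show g.hom (b - f.hom a) = c
    rw [map_sub, h.g_f, sub_zero, hb]
  · rintro _ ⟨b, rfl⟩
    rw [LinearMap.mem_ker]
    rw [δ₀_eq 𝒰 h hB (H0map g b) (b : B) rfl 0 (fun x => by
      rw [show ((0 : ↥(𝒰.Z₁ A)) : G → A) x = 0 from rfl, map_zero, b.2 x, sub_self])]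
    exact map_zero _

/-! ### degree 1 -/

theorem exact_H1A (h : ShortExact f g) (hB : 𝒰.IsSmooth B) :
    LinearMap.ker (H1map 𝒰 f) = LinearMap.range (δ₀ 𝒰 h hB) := by
  apply le_antisymm
  · intro x hx
    obtain ⟨z, rfl⟩ := H1π_surjective 𝒰 A x
    rw [LinearMap.mem_ker, H1map_mk, LevelStr.H1π_eq_zero_iff] at hx
    obtain ⟨b, hb⟩ := hx
    have hb' : ∀ x, f.hom ((z : G → A) x) = B.ρ x b - b := by
      intro x
      have := congr_fun hb x
      simp only [d₀₁_hom_apply] at this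
      rw [this]; rfl
    have hinv : g.hom b ∈ C.ρ.invariants := by
      intro x
      have := congrArg g.hom (hb' x)
      rw [h.g_f, map_sub, Rep.hom_comm_apply] at this
      exact (sub_eq_zero.1 this.symm)
    exact ⟨⟨g.hom b, hinv⟩, δ₀_eq 𝒰 h hB _ b rfl z hb'⟩
  · rintro _ ⟨c, rfl⟩
    obtain ⟨b, hb⟩ := h.surj (c : C)
    obtain ⟨z, hz, hδ⟩ := exists_δ₀_eq 𝒰 h hB c b hb
    rw [LinearMap.mem_ker, hδ, H1map_mk, LevelStr.H1π_eq_zero_iff]
    refine ⟨b, ?_⟩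
    funext x
    simp only [d₀₁_hom_apply]
    exact (hz x).symm

theorem exact_H1B (h : ShortExact f g) (hB : 𝒰.IsSmooth B) :
    LinearMap.ker (H1map 𝒰 g) = LinearMap.range (H1map 𝒰 f) := by
  apply le_antisymm
  · intro x hx
    obtain ⟨y, rfl⟩ := H1π_surjective 𝒰 B x
    rw [LinearMap.mem_ker, H1map_mk, LevelStr.H1π_eq_zero_iff] at hx
    obtain ⟨c₀, hc₀⟩ := hx
    obtain ⟨b₀, rfl⟩ := h.surj c₀
    -- subtract the coboundary of `b₀`
    have hdb : (d₀₁ B).hom b₀ ∈ 𝒰.Z₁ B :=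
      (𝒰.mem_Z₁_iff B _).2 ⟨coboundaries₁_le_cocycles₁ B ⟨b₀, rfl⟩,
        hB.coboundaries₁_le_C₁ ⟨b₀, rfl⟩⟩
    have hy' : (y : G → B) - (d₀₁ B).hom b₀ ∈ 𝒰.Z₁ B := Submodule.sub_mem _ y.2 hdb
    have hgy' : ∀ x, g.hom (((y : G → B) - (d₀₁ B).hom b₀) x) = 0 := by
      intro x
      have := congr_fun hc₀ x
      simp only [d₀₁_hom_apply] at this
      rw [Pi.sub_apply, d₀₁_hom_apply, map_sub, map_sub, Rep.hom_comm_apply, this]
      exact sub_self _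
    obtain ⟨z, hz⟩ := exists_Z₁_of_comp_eq_zero h hy' hgy'
    refine ⟨𝒰.H1π A z, ?_⟩
    rw [H1map_mk, H1π_eq_iff]
    refine ⟨-b₀, fun x => ?_⟩
    rw [Z1map_coe, hz x, Pi.sub_apply, d₀₁_hom_apply, map_neg]
    abel
  · rintro _ ⟨x, rfl⟩
    obtain ⟨z, rfl⟩ := H1π_surjective 𝒰 A x
    rw [LinearMap.mem_ker, H1map_mk, H1map_mk]
    exact H1π_eq_zero_of_forall 𝒰 _ (fun x => h.g_f _)

theorem exact_H1C (h : ShortExact f g) (hB : 𝒰.IsSmooth B) :
    LinearMap.ker (δ₁ 𝒰 h hB) = LinearMap.range (H1map 𝒰 g) := by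
  apply le_antisymm
  · intro x hx
    obtain ⟨z, rfl⟩ := H1π_surjective 𝒰 C x
    rw [LinearMap.mem_ker] at hx
    have hy : 𝒰.IsConst₁ (Function.surjInv h.surj ∘ (z : G → C)) := z.2.2.comp _
    have hgy : ∀ x, g.hom ((Function.surjInv h.surj ∘ (z : G → C)) x) = (z : G → C) x :=
      fun x => Function.surjInv_eq h.surj _
    obtain ⟨w, hw, hδ⟩ := exists_δ₁_eq 𝒰 h hB z _ hy hgy
    rw [hδ, LevelStr.H2π_eq_zero_iff, LevelStr.mem_B₂_iff] at hx
    obtain ⟨t, ht, hdt⟩ := hx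
    set y : G → B := Function.surjInv h.surj ∘ (z : G → C) with hydef
    have hy'c : 𝒰.IsConst₁ (fun x => y x - comp₁ f t x) :=
      isConst₁_sub hy (LevelStr.IsConst₁.comp ht f.hom)
    have hy'z : (fun x => y x - comp₁ f t x) ∈ cocycles₁ B := by
      rw [mem_cocycles₁_iff_d₁₂]
      have e : (fun x => y x - comp₁ f t x) = y - comp₁ f t := rfl
      rw [e, map_sub, ← comp₂_d₁₂, hdt]
      funext x
      rw [Pi.sub_apply, comp₂_apply, hw x]
      exact sub_self _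
    refine ⟨𝒰.H1π B ⟨_, (𝒰.mem_Z₁_iff B _).2 ⟨hy'z, hy'c⟩⟩, ?_⟩
    rw [H1map_mk]
    congr 1
    apply Subtype.ext
    funext x
    show g.hom (y x - f.hom (t x)) = (z : G → C) x
    rw [map_sub, h.g_f, sub_zero, hgy x]
  · rintro _ ⟨x, rfl⟩
    obtain ⟨y, rfl⟩ := H1π_surjective 𝒰 B x
    rw [LinearMap.mem_ker, H1map_mk]
    rw [δ₁_eq 𝒰 h hB (Z1map 𝒰 g y) (y : G → B) y.2.2 (fun x => rfl) 0 (fun x => by
      have := (mem_cocycles₁_iff_d₁₂ B (y : G → B)).1 y.2.1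
      rw [this]
      exact map_zero _)]
    exact map_zero _

/-! ### degree 2 -/

theorem exact_H2A (h : ShortExact f g) (hB : 𝒰.IsSmooth B) :
    LinearMap.ker (H2map 𝒰 f) = LinearMap.range (δ₁ 𝒰 h hB) := by
  apply le_antisymm
  · intro x hx
    obtain ⟨w, rfl⟩ := H2π_surjective 𝒰 A x
    rw [LinearMap.mem_ker, H2map_mk, LevelStr.H2π_eq_zero_iff, LevelStr.mem_B₂_iff] at hx
    obtain ⟨y, hy, hdy⟩ := hx
    have hfw : ∀ x, f.hom ((w : G × G → A) x) = (d₁₂ B).hom y x := by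
      intro x
      rw [hdy]; rfl
    have hz : comp₁ g y ∈ 𝒰.Z₁ C := by
      refine (𝒰.mem_Z₁_iff C _).2 ⟨?_, LevelStr.IsConst₁.comp hy g.hom⟩
      rw [mem_cocycles₁_iff_d₁₂, ← comp₂_d₁₂]
      funext x
      rw [comp₂_apply, ← hfw x, h.g_f]
      rfl
    exact ⟨𝒰.H1π C ⟨_, hz⟩, δ₁_eq 𝒰 h hB ⟨_, hz⟩ y hy (fun x => rfl) w hfw⟩
  · rintro _ ⟨x, rfl⟩
    obtain ⟨z, rfl⟩ := H1π_surjective 𝒰 C x
    have hy : 𝒰.IsConst₁ (Function.surjInv h.surj ∘ (z : G → C)) := z.2.2.comp _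
    have hgy : ∀ x, g.hom ((Function.surjInv h.surj ∘ (z : G → C)) x) = (z : G → C) x :=
      fun x => Function.surjInv_eq h.surj _
    obtain ⟨w, hw, hδ⟩ := exists_δ₁_eq 𝒰 h hB z _ hy hgy
    rw [LinearMap.mem_ker, hδ, H2map_mk, LevelStr.H2π_eq_zero_iff, LevelStr.mem_B₂_iff]
    refine ⟨_, hy, ?_⟩
    funext x
    exact (hw x).symm

theorem exact_H2B (h : ShortExact f g) (hB : 𝒰.IsSmooth B) :
    LinearMap.ker (H2map 𝒰 g) = LinearMap.range (H2map 𝒰 f) := by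
  apply le_antisymm
  · intro x hx
    obtain ⟨v, rfl⟩ := H2π_surjective 𝒰 B x
    rw [LinearMap.mem_ker, H2map_mk, LevelStr.H2π_eq_zero_iff, LevelStr.mem_B₂_iff] at hx
    obtain ⟨t, ht, hdt⟩ := hx
    -- lift `t` to a level cochain of `B`
    set y : G → B := Function.surjInv h.surj ∘ t with hydef
    have hy : 𝒰.IsConst₁ y := ht.comp _
    have hgy : comp₁ g y = t := by
      funext x
      exact Function.surjInv_eq h.surj _
    have hdy : (d₁₂ B).hom y ∈ 𝒰.Z₂ B := hB.B₂_le_Z₂ ((𝒰.mem_B₂_iff B _).2 ⟨y, hy, rfl⟩)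
    have hv' : (v : G × G → B) - (d₁₂ B).hom y ∈ 𝒰.Z₂ B := Submodule.sub_mem _ v.2 hdy
    have hgv' : ∀ x, g.hom (((v : G × G → B) - (d₁₂ B).hom y) x) = 0 := by
      intro x
      have h1 : g.hom ((d₁₂ B).hom y x) = (d₁₂ C).hom t x := by
        rw [← comp₂_apply g, comp₂_d₁₂, hgy]
      have h2 : g.hom ((v : G × G → B) x) = (d₁₂ C).hom t x := by
        rw [hdt]; rfl
      rw [Pi.sub_apply, map_sub, h1, h2, sub_self]
    obtain ⟨w, hw⟩ := exists_Z₂_of_comp_eq_zero h hv' hgv'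
    refine ⟨𝒰.H2π A w, ?_⟩
    rw [H2map_mk, H2π_eq_iff]
    refine ⟨-y, hy.comp (fun b => -b), fun x => ?_⟩
    rw [Z2map_coe, hw x, Pi.sub_apply, map_neg]
    simp only [Pi.neg_apply]
    abel
  · rintro _ ⟨x, rfl⟩
    obtain ⟨w, rfl⟩ := H2π_surjective 𝒰 A x
    rw [LinearMap.mem_ker, H2map_mk, H2map_mk]
    exact H2π_eq_zero_of_forall 𝒰 _ (fun x => h.g_f _)

end Fermat.Agent.S55.LevelLES13
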